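import Fermat.Agent.S13.RF.Poly
import Fermat.Agent.S05.XForm

/-!
# S13, route RF: evaluation of the uncancelled recursion at a point

On a curve `Y² = X³ + a₂ X² + a₄ X` over a field of characteristic `0`, `x(nP) B_n(x) = A_n(x)`
with `B_n(x) ≠ 0`, as long as the recursion is valid.  For a point of odd prime order `p` it is
valid up to `n = p - 1`, hence `F_{p-1}(x(P)) = 0`.
-/

set_option autoImplicit false

namespace Fermat.Agent.S13.RF

open WeierstrassCurve WeierstrassCurve.Affine Polynomial
open Fermat.Agent.S05 (IsLeg)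

variable {K : Type*} [Field K] [DecidableEq K] [CharZero K] {W : WeierstrassCurve K}

/-- `n • P` is affine and its `x`-coordinate is `A_n(x) / B_n(x)` with `B_n(x) ≠ 0`. -/
def Inv (W : WeierstrassCurve K) (P : W.toAffine.Point) (x : K) (n : ℕ) : Prop :=
  ∃ (xn yn : K) (hn : W.toAffine.Nonsingular xn yn), n • P = Point.some xn yn hn ∧
    (polyB W.a₂ W.a₄ n).eval x ≠ 0 ∧
      xn * (polyB W.a₂ W.a₄ n).eval x = (polyA W.a₂ W.a₄ n).eval x

omit [CharZero K] in
theorem inv_one {x y : K} (h : W.toAffine.Nonsingular x y) : Inv W (Point.some x y h) x 1 :=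
  ⟨x, y, h, one_nsmul _, by rw [polyB_one]; simp, by rw [polyB_one, polyA_one]; simp⟩

theorem inv_two (hW : IsLeg W) {x y : K} (h : W.toAffine.Nonsingular x y) (hy : y ≠ 0) :
    Inv W (Point.some x y h) x 2 := by
  obtain ⟨x', y', h', h2, hx'⟩ := S05.two_nsmul_some hW h hy
  have heq := S05.eq_of_nonsingular hW h
  have hB : (polyB W.a₂ W.a₄ 2).eval x = 4 * y ^ 2 := by
    rw [polyB_two]
    simp only [eval_mul, eval_add, eval_pow, eval_X, eval_C]
    rw [heq]
    ring
  refine ⟨x', y', h', h2, ?_, ?_⟩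
  · rw [hB]
    exact mul_ne_zero (by norm_num) (pow_ne_zero 2 hy)
  · rw [hB, hx', polyA_two]
    simp

theorem inv_step (hW : IsLeg W) {x y : K} (h : W.toAffine.Nonsingular x y) (n : ℕ)
    (h1 : Inv W (Point.some x y h) x (n + 1)) (h2 : Inv W (Point.some x y h) x (n + 2))
    (hx0 : ∀ (x1 y1 : K) (hh : W.toAffine.Nonsingular x1 y1),
      (n + 1) • Point.some x y h = Point.some x1 y1 hh → x1 ≠ 0)
    (hxx : ∀ (x2 y2 : K) (hh : W.toAffine.Nonsingular x2 y2),
      (n + 2) • Point.some x y h = Point.some x2 y2 hh → x2 ≠ x) :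
    Inv W (Point.some x y h) x (n + 3) := by
  obtain ⟨x1, y1, hh1, e1, hB1, hA1⟩ := h1
  obtain ⟨x2, y2, hh2, e2, hB2, hA2⟩ := h2
  have hne : x2 ≠ x := hxx _ _ _ e2
  have h10 : x1 ≠ 0 := hx0 _ _ _ e1
  obtain ⟨x3, y3, hh3, x4, y4, hh4, hadd, hsub, hprod, -, -⟩ := S05.add_sub_some hW hh2 h hne
  have e3 : (n + 3) • Point.some x y h = Point.some x3 y3 hh3 := by
    rw [show n + 3 = (n + 2) + 1 from rfl, succ_nsmul, e2, hadd]
  have e4 : Point.some x4 y4 hh4 = Point.some x1 y1 hh1 := by
    rw [← hsub, ← e2, ← e1, show n + 2 = (n + 1) + 1 from rfl, succ_nsmul, add_sub_cancel_right]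
  obtain ⟨rfl, rfl⟩ := Point.some.inj e4
  refine ⟨x3, y3, hh3, e3, ?_, ?_⟩
  · rw [polyB_add_three]
    simp only [eval_mul, eval_pow, eval_sub, eval_X]
    rw [← hA2, ← hA1]
    have : x2 * eval x (polyB W.a₂ W.a₄ (n + 2)) - x * eval x (polyB W.a₂ W.a₄ (n + 2)) =
        (x2 - x) * eval x (polyB W.a₂ W.a₄ (n + 2)) := by ring
    rw [this]
    exact mul_ne_zero (pow_ne_zero 2 (mul_ne_zero (sub_ne_zero.mpr hne) hB2))
      (mul_ne_zero h10 hB1)
  · rw [polyB_add_three, polyA_add_three]
    simp only [eval_mul, eval_pow, eval_sub, eval_X, eval_C]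
    rw [← hA2, ← hA1]
    linear_combination (eval x (polyB W.a₂ W.a₄ (n + 2)) ^ 2 *
      eval x (polyB W.a₂ W.a₄ (n + 1))) * hprod

/-- The recursion is valid up to `p - 1` for a point of odd prime order `p`. -/
theorem inv_of_prime_order (hW : IsLeg W) {p : ℕ} (hp : p.Prime) (hp2 : p ≠ 2) {x y : K}
    (h : W.toAffine.Nonsingular x y) (hP : p • Point.some x y h = 0) :
    ∀ n, 1 ≤ n → n ≤ p - 1 → Inv W (Point.some x y h) x n := by
  have : Fact p.Prime := ⟨hp⟩
  have hne0 : Point.some x y h ≠ 0 := Point.some_ne_zero h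
  have hord : addOrderOf (Point.some x y h) = p := addOrderOf_eq_prime hP hne0
  have hdvd : ∀ m : ℕ, m • Point.some x y h = 0 → p ∣ m := fun m hm => by
    rw [← hord]; exact addOrderOf_dvd_of_nsmul_eq_zero hm
  have hp2' : ¬ p ∣ 2 := fun hd => hp2 ((Nat.prime_dvd_prime_iff_eq hp Nat.prime_two).mp hd)
  have hy : y ≠ 0 := fun hy0 => hp2' (hdvd 2 (S05.two_nsmul_some_eq_zero hW h hy0))
  intro n
  induction n using Nat.strong_induction_on with
  | _ n ih =>
    intro hn1 hnp
    match n, hn1, hnp with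
    | 1, _, _ => exact inv_one h
    | 2, _, _ => exact inv_two hW h hy
    | n + 3, _, hnp =>
      refine inv_step hW h n (ih (n + 1) (by omega) (by omega) (by omega))
        (ih (n + 2) (by omega) (by omega) (by omega)) ?_ ?_
      · intro x1 y1 hh e hx1
        subst hx1
        have hy1 : y1 = 0 := by
          have := S05.eq_of_nonsingular hW hh
          have h0 : y1 ^ 2 = 0 := by rw [this]; ring
          exact pow_eq_zero_iff (two_ne_zero) |>.mp h0
        have h2 : (2 * (n + 1)) • Point.some x y h = 0 := by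
          rw [mul_nsmul', e]
          exact S05.two_nsmul_some_eq_zero hW hh hy1
        rcases (Nat.Prime.dvd_mul hp).mp (hdvd _ h2) with hd | hd
        · exact hp2' hd
        · have := Nat.le_of_dvd (by omega) hd
          omega
      · intro x2 y2 hh e hx2
        subst hx2
        rcases S05.eq_or_eq_neg_of_x_eq hW hh h with hy2 | hy2
        · subst hy2
          have h1 : (n + 1) • Point.some x2 y2 h = 0 := by
            have e' : (n + 1) • Point.some x2 y2 h + Point.some x2 y2 h = Point.some x2 y2 h := by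
              rw [← succ_nsmul]; exact e
            exact add_eq_right.mp e'
          have := Nat.le_of_dvd (by omega) (hdvd _ h1)
          omega
        · subst hy2
          obtain ⟨h', hneg⟩ := S05.neg_some hW h
          have h3 : (n + 3) • Point.some x2 y h = 0 := by
            rw [show n + 3 = (n + 2) + 1 from rfl, succ_nsmul, e]
            have : Point.some x2 (-y) hh = -Point.some x2 y h := by rw [hneg]
            rw [this, neg_add_cancel]
          have := Nat.le_of_dvd (by omega) (hdvd _ h3)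
          omega

/-- **The `x`-coordinate of a point of odd prime order `p` is a root of `F_{p-1}`.** -/
theorem eval_polyF_eq_zero (hW : IsLeg W) {p : ℕ} (hp : p.Prime) (hp2 : p ≠ 2) {x y : K}
    (h : W.toAffine.Nonsingular x y) (hP : p • Point.some x y h = 0) :
    (polyF W.a₂ W.a₄ (p - 1)).eval x = 0 := by
  have hp3 : 3 ≤ p := by
    have := hp.two_le
    omega
  obtain ⟨x', y', h', e, -, hA⟩ := inv_of_prime_order hW hp hp2 h hP (p - 1) (by omega) le_rfl
  have hneg : (p - 1) • Point.some x y h = -Point.some x y h := by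
    apply eq_neg_of_add_eq_zero_left
    rw [← succ_nsmul, show p - 1 + 1 = p by omega, hP]
  obtain ⟨h'', hn⟩ := S05.neg_some hW h
  rw [hneg, hn] at e
  obtain ⟨rfl, -⟩ := Point.some.inj e
  rw [polyF, eval_sub, eval_mul, eval_X, ← hA]
  ring

end Fermat.Agent.S13.RF
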