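import Mathlib

/-!
# S13, route RF: the uncancelled product recursion

For a curve `Y² = X³ + a₂ X² + a₄ X` the `x`-coordinates of the multiples of a point satisfy
`x((n+1)P) x((n-1)P) (x(nP) - x)² = (x(nP) x - a₄)²`.  We define polynomials `A_n`, `B_n`
(over any commutative ring, without any cancellation) by

* `A₁ = X`, `B₁ = 1`, `A₂ = (X² - a₄)²`, `B₂ = 4 X (X² + a₂ X + a₄)`,
* `A_{n+1} = (A_n X - a₄ B_n)² B_{n-1}`, `B_{n+1} = (A_n - X B_n)² A_{n-1}`,

so that `x(nP) = A_n(x) / B_n(x)` whenever the recursion is valid, and we compute their degrees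
and leading coefficients: `deg A_n = d_n + 1`, `deg B_n = d_n`, `lc A_n = g_n`,
`lc B_n = n² g_n` for an explicit natural number `g_n` all of whose prime factors are `≤ n - 2`.
-/

set_option autoImplicit false

namespace Fermat.Agent.S13.RF

open Polynomial

section Lead

variable {R : Type*} [CommRing R]

/-- `p` has degree at most `m` and its coefficient of `X ^ m` is `c`. -/
def IsLead (p : R[X]) (m : ℕ) (c : R) : Prop := p.natDegree ≤ m ∧ p.coeff m = c

theorem IsLead.congr {p : R[X]} {m m' : ℕ} {c c' : R} (h : IsLead p m c) (hm : m = m')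
    (hc : c = c') : IsLead p m' c' := hm ▸ hc ▸ h

theorem IsLead.mul {p q : R[X]} {m n : ℕ} {c d : R} (hp : IsLead p m c) (hq : IsLead q n d) :
    IsLead (p * q) (m + n) (c * d) :=
  ⟨natDegree_mul_le_of_le hp.1 hq.1, by rw [coeff_mul_add_eq_of_natDegree_le hp.1 hq.1, hp.2, hq.2]⟩

theorem IsLead.pow {p : R[X]} {m : ℕ} {c : R} (hp : IsLead p m c) (k : ℕ) :
    IsLead (p ^ k) (k * m) (c ^ k) :=
  ⟨natDegree_pow_le_of_le k hp.1, by rw [coeff_pow_of_natDegree_le hp.1, hp.2]⟩

theorem IsLead.sub {p q : R[X]} {m : ℕ} {c d : R} (hp : IsLead p m c) (hq : IsLead q m d) :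
    IsLead (p - q) m (c - d) :=
  ⟨(natDegree_sub_le p q).trans (max_le hp.1 hq.1), by rw [coeff_sub, hp.2, hq.2]⟩

theorem IsLead.sub_of_lt {p q : R[X]} {m : ℕ} {c : R} (hp : IsLead p m c)
    (hq : q.natDegree < m) : IsLead (p - q) m c :=
  ⟨(natDegree_sub_le p q).trans (max_le hp.1 hq.le),
    by rw [coeff_sub, hp.2, coeff_eq_zero_of_natDegree_lt hq, sub_zero]⟩

theorem IsLead.add_of_lt {p q : R[X]} {m : ℕ} {c : R} (hp : IsLead p m c)
    (hq : q.natDegree < m) : IsLead (p + q) m c :=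
  ⟨(natDegree_add_le p q).trans (max_le hp.1 hq.le),
    by rw [coeff_add, hp.2, coeff_eq_zero_of_natDegree_lt hq, add_zero]⟩

theorem IsLead.ne_zero {p : R[X]} {m : ℕ} {c : R} (hp : IsLead p m c) (hc : c ≠ 0) : p ≠ 0 := by
  rintro rfl
  exact hc (by simpa using hp.2.symm)

theorem IsLead.natDegree_eq {p : R[X]} {m : ℕ} {c : R} (hp : IsLead p m c) (hc : c ≠ 0) :
    p.natDegree = m :=
  le_antisymm hp.1 (le_natDegree_of_ne_zero (by rw [hp.2]; exact hc))

theorem IsLead.leadingCoeff_eq {p : R[X]} {m : ℕ} {c : R} (hp : IsLead p m c) (hc : c ≠ 0) :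
    p.leadingCoeff = c := by
  rw [leadingCoeff, hp.natDegree_eq hc, hp.2]

theorem isLead_X : IsLead (X : R[X]) 1 1 := ⟨natDegree_X_le, coeff_X_one⟩

theorem isLead_one : IsLead (1 : R[X]) 0 1 := ⟨by simp, by simp⟩

theorem isLead_C (c : R) : IsLead (C c : R[X]) 0 c := ⟨by simp, by simp⟩

end Lead

section Seq

variable {R : Type*} [CommRing R] (a2 a4 : R)

/-- The pair `(A_n, B_n)` (junk at `n = 0`). -/
noncomputable def polyAB : ℕ → R[X] × R[X]
  | 0 => (1, 0)
  | 1 => (X, 1)
  | 2 => ((X ^ 2 - C a4) ^ 2, C 4 * X * (X ^ 2 + C a2 * X + C a4))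
  | n + 3 =>
    (((polyAB (n + 2)).1 * X - C a4 * (polyAB (n + 2)).2) ^ 2 * (polyAB (n + 1)).2,
      ((polyAB (n + 2)).1 - X * (polyAB (n + 2)).2) ^ 2 * (polyAB (n + 1)).1)

/-- the numerator polynomial `A_n` -/
noncomputable def polyA (n : ℕ) : R[X] := (polyAB a2 a4 n).1

/-- the denominator polynomial `B_n` -/
noncomputable def polyB (n : ℕ) : R[X] := (polyAB a2 a4 n).2

theorem polyA_one : polyA a2 a4 1 = X := rfl

theorem polyB_one : polyB a2 a4 1 = 1 := rfl

theorem polyA_two : polyA a2 a4 2 = (X ^ 2 - C a4) ^ 2 := rfl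

theorem polyB_two : polyB a2 a4 2 = C 4 * X * (X ^ 2 + C a2 * X + C a4) := rfl

theorem polyA_add_three (n : ℕ) : polyA a2 a4 (n + 3) =
    (polyA a2 a4 (n + 2) * X - C a4 * polyB a2 a4 (n + 2)) ^ 2 * polyB a2 a4 (n + 1) := rfl

theorem polyB_add_three (n : ℕ) : polyB a2 a4 (n + 3) =
    (polyA a2 a4 (n + 2) - X * polyB a2 a4 (n + 2)) ^ 2 * polyA a2 a4 (n + 1) := rfl

/-- the polynomial `F_n = A_n - X B_n`, which vanishes at `x(P)` when `nP = ±P` -/
noncomputable def polyF (n : ℕ) : R[X] := polyA a2 a4 n - X * polyB a2 a4 n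

/-- the degree of `B_n` -/
def dSeq : ℕ → ℕ
  | 0 => 0
  | 1 => 0
  | 2 => 3
  | n + 3 => 2 * dSeq (n + 2) + dSeq (n + 1) + 3

/-- the leading coefficient of `A_n` -/
def gSeq : ℕ → ℕ
  | 0 => 1
  | 1 => 1
  | 2 => 1
  | n + 3 => gSeq (n + 2) ^ 2 * (n + 1) ^ 2 * gSeq (n + 1)

theorem gSeq_pos (n : ℕ) : 0 < gSeq n := by
  induction n using Nat.strong_induction_on with
  | _ n ih =>
    match n with
    | 0 => decide
    | 1 => decide
    | 2 => decide
    | n + 3 =>
      have h1 := ih (n + 2) (by omega)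
      have h2 := ih (n + 1) (by omega)
      show 0 < gSeq (n + 2) ^ 2 * (n + 1) ^ 2 * gSeq (n + 1)
      positivity

/-- the prime factors of `g_n` are `≤ n - 2` -/
theorem prime_dvd_gSeq {q : ℕ} (hq : q.Prime) (n : ℕ) (h : q ∣ gSeq n) : q + 2 ≤ n := by
  induction n using Nat.strong_induction_on with
  | _ n ih =>
    match n with
    | 0 => exact absurd (Nat.dvd_one.mp h) hq.ne_one
    | 1 => exact absurd (Nat.dvd_one.mp h) hq.ne_one
    | 2 => exact absurd (Nat.dvd_one.mp h) hq.ne_one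
    | n + 3 =>
      have h' : q ∣ gSeq (n + 2) ^ 2 * (n + 1) ^ 2 * gSeq (n + 1) := h
      rcases (Nat.Prime.dvd_mul hq).mp h' with h1 | h1
      · rcases (Nat.Prime.dvd_mul hq).mp h1 with h2 | h2
        · have := ih (n + 2) (by omega) (hq.dvd_of_dvd_pow h2)
          omega
        · have := Nat.le_of_dvd (by omega) (hq.dvd_of_dvd_pow h2)
          omega
      · have := ih (n + 1) (by omega) h1
        omega

theorem isLead_polyA_polyB (n : ℕ) (hn : 1 ≤ n) :
    IsLead (polyA a2 a4 n) (dSeq n + 1) (gSeq n : R) ∧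
      IsLead (polyB a2 a4 n) (dSeq n) ((n : R) ^ 2 * (gSeq n : R)) := by
  induction n using Nat.strong_induction_on with
  | _ n ih =>
    match n, hn with
    | 1, _ =>
      refine ⟨?_, ?_⟩
      · rw [polyA_one]
        exact isLead_X.congr rfl (by simp [gSeq])
      · rw [polyB_one]
        exact isLead_one.congr rfl (by simp [gSeq])
    | 2, _ =>
      refine ⟨?_, ?_⟩
      · rw [polyA_two]
        have h1 : IsLead (X ^ 2 - C a4 : R[X]) 2 1 := by
          have := (isLead_X (R := R)).pow 2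
          exact (this.sub_of_lt (by simp)).congr rfl (by simp)
        exact (h1.pow 2).congr rfl (by simp [gSeq])
      · rw [polyB_two]
        have h1 : IsLead (X ^ 2 + C a2 * X + C a4 : R[X]) 2 1 := by
          have h0 : IsLead (X ^ 2 : R[X]) 2 1 := ((isLead_X (R := R)).pow 2).congr rfl (by simp)
          have hq : (C a2 * X + C a4 : R[X]).natDegree < 2 := by
            refine lt_of_le_of_lt (natDegree_add_le _ _) (max_lt ?_ (by simp))
            exact lt_of_le_of_lt (natDegree_C_mul_le _ _) (lt_of_le_of_lt natDegree_X_le (by norm_num))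
          have := h0.add_of_lt hq
          rwa [← add_assoc] at this
        have := ((isLead_C (4 : R)).mul isLead_X).mul h1
        exact this.congr rfl (by simp [gSeq]; norm_num)
    | n + 3, _ =>
      obtain ⟨hA2, hB2⟩ := ih (n + 2) (by omega) (by omega)
      obtain ⟨hA1, hB1⟩ := ih (n + 1) (by omega) (by omega)
      refine ⟨?_, ?_⟩
      · rw [polyA_add_three]
        have h1 : IsLead (polyA a2 a4 (n + 2) * X - C a4 * polyB a2 a4 (n + 2))
            (dSeq (n + 2) + 1 + 1) ((gSeq (n + 2) : R) * 1) := by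
          refine (hA2.mul isLead_X).sub_of_lt ?_
          exact lt_of_le_of_lt (natDegree_C_mul_le _ _) (lt_of_le_of_lt hB2.1 (by omega))
        refine ((h1.pow 2).mul hB1).congr ?_ ?_
        · show 2 * (dSeq (n + 2) + 1 + 1) + dSeq (n + 1) = 2 * dSeq (n + 2) + dSeq (n + 1) + 3 + 1
          ring
        · show ((gSeq (n + 2) : R) * 1) ^ 2 * (((n + 1 : ℕ) : R) ^ 2 * (gSeq (n + 1) : R)) =
            ((gSeq (n + 2) ^ 2 * (n + 1) ^ 2 * gSeq (n + 1) : ℕ) : R)
          push_cast
          ring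
      · rw [polyB_add_three]
        have h0 : IsLead (X * polyB a2 a4 (n + 2)) (dSeq (n + 2) + 1)
            (1 * (((n + 2 : ℕ) : R) ^ 2 * (gSeq (n + 2) : R))) :=
          (isLead_X.mul hB2).congr (by ring) rfl
        have h1 := hA2.sub h0
        refine ((h1.pow 2).mul hA1).congr ?_ ?_
        · show 2 * (dSeq (n + 2) + 1) + (dSeq (n + 1) + 1) = 2 * dSeq (n + 2) + dSeq (n + 1) + 3
          ring
        · show ((gSeq (n + 2) : R) - 1 * (((n + 2 : ℕ) : R) ^ 2 * (gSeq (n + 2) : R))) ^ 2 *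
              (gSeq (n + 1) : R) =
            ((n + 3 : ℕ) : R) ^ 2 * ((gSeq (n + 2) ^ 2 * (n + 1) ^ 2 * gSeq (n + 1) : ℕ) : R)
          push_cast
          ring

theorem isLead_polyA (n : ℕ) (hn : 1 ≤ n) :
    IsLead (polyA a2 a4 n) (dSeq n + 1) (gSeq n : R) := (isLead_polyA_polyB a2 a4 n hn).1

theorem isLead_polyB (n : ℕ) (hn : 1 ≤ n) :
    IsLead (polyB a2 a4 n) (dSeq n) ((n : R) ^ 2 * (gSeq n : R)) :=
  (isLead_polyA_polyB a2 a4 n hn).2

/-- `F_n = A_n - X B_n` has degree `≤ d_n + 1` and top coefficient `(1 - n²) g_n`. -/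
theorem isLead_polyF (n : ℕ) (hn : 1 ≤ n) :
    IsLead (polyF a2 a4 n) (dSeq n + 1) ((1 - (n : R) ^ 2) * (gSeq n : R)) := by
  have h0 : IsLead (X * polyB a2 a4 n) (dSeq n + 1) (1 * ((n : R) ^ 2 * (gSeq n : R))) :=
    (isLead_X.mul (isLead_polyB a2 a4 n hn)).congr (by ring) rfl
  exact ((isLead_polyA a2 a4 n hn).sub h0).congr rfl (by ring)

/-- base change of the polynomials `A_n`, `B_n` -/
theorem map_polyAB {S : Type*} [CommRing S] (f : R →+* S) (n : ℕ) :
    (polyA a2 a4 n).map f = polyA (f a2) (f a4) n ∧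
      (polyB a2 a4 n).map f = polyB (f a2) (f a4) n := by
  induction n using Nat.strong_induction_on with
  | _ n ih =>
    match n with
    | 0 => exact ⟨by simp [polyA, polyAB], by simp [polyB, polyAB]⟩
    | 1 => exact ⟨by simp [polyA_one], by simp [polyB_one]⟩
    | 2 =>
      refine ⟨by simp [polyA_two], ?_⟩
      rw [polyB_two, polyB_two]
      simp only [Polynomial.map_mul, Polynomial.map_pow, Polynomial.map_add, map_X, map_C]
      rw [map_ofNat]
    | n + 3 =>
      obtain ⟨hA2, hB2⟩ := ih (n + 2) (by omega)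
      obtain ⟨hA1, hB1⟩ := ih (n + 1) (by omega)
      refine ⟨?_, ?_⟩
      · rw [polyA_add_three, polyA_add_three]
        simp only [Polynomial.map_mul, Polynomial.map_pow, Polynomial.map_sub, map_X, map_C,
          hA2, hB2, hB1]
      · rw [polyB_add_three, polyB_add_three]
        simp only [Polynomial.map_mul, Polynomial.map_pow, Polynomial.map_sub, map_X,
          hA2, hB2, hA1]

theorem map_polyF {S : Type*} [CommRing S] (f : R →+* S) (n : ℕ) :
    (polyF a2 a4 n).map f = polyF (f a2) (f a4) n := by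
  rw [polyF, polyF, Polynomial.map_sub, Polynomial.map_mul, map_X, (map_polyAB a2 a4 f n).1,
    (map_polyAB a2 a4 f n).2]

end Seq

end Fermat.Agent.S13.RF
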