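import Fermat.Agent.S13.RF.Eval
import Fermat.Agent.S13.Content
import Fermat.Agent.S13.XpCurve
import Fermat.Agent.S05.OrdQbar

/-!
# S13, route RF: the `(Xp)` statement on a Legendre-type model

For `W : Y² = X³ + a₂ X² + a₄ X` over a field of characteristic `0`, `p` an odd prime and `A` a
valuation subring with `p ∈ m_A`, `a₂, a₄ ∈ A`: the `x`-coordinates of the points of order `p`
are roots of `F_{p-1} ∈ A[X]`, whose leading coefficient is `-p (p-2) g_{p-1}` with
`(p-2) g_{p-1}` a unit of `A`.  By the content lemma, `p * ∏ x ∈ A` for every finite set of such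
`x`-coordinates lying outside `A`.  With `XpCurve.no_stable` this is `(Xp)`.
-/

set_option autoImplicit false

namespace Fermat.Agent.S13.RF

open WeierstrassCurve WeierstrassCurve.Affine WeierstrassCurve.Affine.Point Polynomial
open Fermat.Agent.S05 (IsLeg)

section General

variable {K : Type*} [Field K]

/-- the coefficients of `F_n` lie in every valuation subring containing `a₂` and `a₄` -/
theorem coeff_polyF_mem (A : ValuationSubring K) {a2 a4 : K} (h2 : a2 ∈ A) (h4 : a4 ∈ A)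
    (n k : ℕ) : (polyF a2 a4 n).coeff k ∈ A := by
  have h := map_polyF (⟨a2, h2⟩ : A) ⟨a4, h4⟩ A.subtype n
  have h' : polyF a2 a4 n = (polyF (⟨a2, h2⟩ : A) ⟨a4, h4⟩ n).map A.subtype := h.symm
  rw [h', coeff_map]
  exact Subtype.property _

variable [CharZero K]

theorem leadCoeff_polyF_ne_zero {n : ℕ} (hn : 2 ≤ n) :
    (1 - (n : K) ^ 2) * (gSeq n : K) ≠ 0 := by
  refine mul_ne_zero ?_ (Nat.cast_ne_zero.mpr (gSeq_pos n).ne')
  intro h
  have h1 : ((n ^ 2 : ℕ) : K) = ((1 : ℕ) : K) := by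
    push_cast
    linear_combination -h
  have h2 : n ^ 2 = 1 := Nat.cast_injective h1
  nlinarith

theorem polyF_ne_zero (a2 a4 : K) {n : ℕ} (hn : 2 ≤ n) : polyF a2 a4 n ≠ 0 :=
  (isLead_polyF a2 a4 n (by omega)).ne_zero (leadCoeff_polyF_ne_zero hn)

theorem leadingCoeff_polyF (a2 a4 : K) {n : ℕ} (hn : 2 ≤ n) :
    (polyF a2 a4 n).leadingCoeff = (1 - (n : K) ^ 2) * (gSeq n : K) :=
  (isLead_polyF a2 a4 n (by omega)).leadingCoeff_eq (leadCoeff_polyF_ne_zero hn)

variable [DecidableEq K] {W : WeierstrassCurve K}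

/-- **(Sp≤), product form.** For a finite set `S` of non-integral `x`-coordinates of points of
odd prime order `p` on a Legendre-type model with `a₂, a₄ ∈ A` and `p ∈ m_A`:
`p * ∏ x ∈ A`. -/
theorem prime_mul_prod_mem (hW : IsLeg W) {p : ℕ} (hp : p.Prime) (hp2 : p ≠ 2)
    (A : ValuationSubring K) (hpA : (p : K) ∈ A.nonunits) (h2 : W.a₂ ∈ A) (h4 : W.a₄ ∈ A)
    (S : Finset K)
    (hS : ∀ x ∈ S, x ∉ A ∧ ∃ (y : K) (h : W.toAffine.Nonsingular x y),
      p • Point.some x y h = 0) :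
    (p : K) * ∏ x ∈ S, x ∈ A := by
  have hp3 : 3 ≤ p := by
    have := hp.two_le
    omega
  have key := Content.leadingCoeff_mul_prod_mem A (polyF W.a₂ W.a₄ (p - 1))
    (coeff_polyF_mem A h2 h4 (p - 1)) S (fun x hx => by
      obtain ⟨hxA, y, h, e⟩ := hS x hx
      exact ⟨eval_polyF_eq_zero hW hp hp2 h e, hxA⟩)
  rw [leadingCoeff_polyF _ _ (by omega : 2 ≤ p - 1)] at key
  have hu : ¬ p ∣ (p - 2) * gSeq (p - 1) := by
    intro hd
    rcases (Nat.Prime.dvd_mul hp).mp hd with h | h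
    · have := Nat.le_of_dvd (by omega) h
      omega
    · have := prime_dvd_gSeq hp (p - 1) h
      omega
  have hval : A.valuation (((p - 2) * gSeq (p - 1) : ℕ) : K) = 1 :=
    S05.OrdQbar.valuation_natCast_eq_one A hp hpA hu
  have hu0 : (((p - 2) * gSeq (p - 1) : ℕ) : K) ≠ 0 := by
    intro h
    rw [h, _root_.map_zero] at hval
    exact zero_ne_one hval
  have huinv : (((p - 2) * gSeq (p - 1) : ℕ) : K)⁻¹ ∈ A := by
    rw [← A.valuation_le_one_iff, map_inv₀, hval, _root_.inv_one]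
  have hc1 : ((p - 1 : ℕ) : K) = (p : K) - 1 := by
    rw [Nat.cast_sub (by omega : 1 ≤ p), Nat.cast_one]
  have hc2 : (((p - 2) * gSeq (p - 1) : ℕ) : K) = ((p : K) - 2) * (gSeq (p - 1) : K) := by
    rw [Nat.cast_mul, Nat.cast_sub (by omega : 2 ≤ p), Nat.cast_ofNat]
  have e : (p : K) * ∏ x ∈ S, x =
      -((1 - ((p - 1 : ℕ) : K) ^ 2) * (gSeq (p - 1) : K) * ∏ x ∈ S, x) *
        (((p - 2) * gSeq (p - 1) : ℕ) : K)⁻¹ := by
    rw [eq_mul_inv_iff_mul_eq₀ hu0, hc2, hc1]
    ring
  rw [e]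
  exact A.mul_mem _ _ (A.neg_mem _ key) huinv

/-- the `p`-torsion of a Legendre-type model is finite (`p` an odd prime) -/
theorem finite_torsion (hW : IsLeg W) {p : ℕ} (hp : p.Prime) (hp2 : p ≠ 2) :
    Finite (Submodule.torsionBy ℤ W.toAffine.Point (p : ℤ)) := by
  classical
  have hp3 : 3 ≤ p := by
    have := hp.two_le
    omega
  have hF0 : polyF W.a₂ W.a₄ (p - 1) ≠ 0 := polyF_ne_zero _ _ (by omega)
  let c : W.toAffine.Point → Option (K × K) := fun Q =>
    match Q with
    | .zero => none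
    | .some x y _ => some (x, y)
  have hc : Function.Injective
      (fun Q : Submodule.torsionBy ℤ W.toAffine.Point (p : ℤ) => c Q.1) := by
    rintro ⟨Q, hQ⟩ ⟨R, hR⟩ h
    apply Subtype.ext
    cases Q with
    | zero =>
      cases R with
      | zero => rfl
      | some x y h' => exact absurd h (by simp [c])
    | some x y h' =>
      cases R with
      | zero => exact absurd h (by simp [c])
      | some x' y' h'' =>
        have h3 : (x, y) = (x', y') := Option.some.inj h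
        obtain ⟨rfl, rfl⟩ := Prod.mk.inj h3
        rfl
  let T : Set (K × K) := {q | (polyF W.a₂ W.a₄ (p - 1)).IsRoot q.1 ∧
    (X ^ 2 - C (q.1 ^ 3 + W.a₂ * q.1 ^ 2 + W.a₄ * q.1) : K[X]).IsRoot q.2}
  have hT : T.Finite := by
    have hsub : T ⊆ ⋃ x ∈ {x | (polyF W.a₂ W.a₄ (p - 1)).IsRoot x},
        (fun y => (x, y)) '' {y | (X ^ 2 - C (x ^ 3 + W.a₂ * x ^ 2 + W.a₄ * x) : K[X]).IsRoot y} := by
      rintro ⟨x, y⟩ ⟨hx, hy⟩
      simp only [Set.mem_iUnion, Set.mem_image, Set.mem_ofPred_eq]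
      exact ⟨x, hx, y, hy, rfl⟩
    refine Set.Finite.subset (Set.Finite.biUnion (finite_setOfPred_isRoot hF0) fun x _ =>
      Set.Finite.image _ (finite_setOfPred_isRoot (X_pow_sub_C_ne_zero (by norm_num) _))) hsub
  have hrange : Set.range (fun Q : Submodule.torsionBy ℤ W.toAffine.Point (p : ℤ) => c Q.1) ⊆
      insert none (some '' T) := by
    rintro _ ⟨⟨Q, hQ⟩, rfl⟩
    cases Q with
    | zero => exact Set.mem_insert _ _
    | some x y h =>
      refine Set.mem_insert_of_mem _ ⟨(x, y), ⟨?_, ?_⟩, rfl⟩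
      · have e : p • Point.some x y h = 0 := by
          have := (Submodule.mem_torsionBy_iff _ _).mp hQ
          rwa [natCast_zsmul] at this
        exact eval_polyF_eq_zero hW hp hp2 h e
      · change (X ^ 2 - C (x ^ 3 + W.a₂ * x ^ 2 + W.a₄ * x) : K[X]).eval y = 0
        rw [eval_sub, eval_pow, eval_X, eval_C, S05.eq_of_nonsingular hW h, sub_self]
  have hfin : (Set.range
      (fun Q : Submodule.torsionBy ℤ W.toAffine.Point (p : ℤ) => c Q.1)).Finite :=
    Set.Finite.subset ((hT.image some).insert none) hrange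
  have : Finite (Set.range
      (fun Q : Submodule.torsionBy ℤ W.toAffine.Point (p : ℤ) => c Q.1)) := hfin.to_subtype
  exact Finite.of_injective_finite_range hc

end General

section Rat

/-- **(Xp) on a Legendre-type model over `ℚ`** (route RF): `p` an odd prime, `A` a valuation
subring of `ℚ̄` over `p` containing `a₂` and `a₄`; if every point of order `p` has non-integral
`x`-coordinate, the `p`-torsion has no proper nonzero Galois-stable subspace. -/
theorem no_stable_leg (WL : WeierstrassCurve ℚ) (hWL : IsLeg WL) {p : ℕ} (hp : p.Prime)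
    (hp2 : p ≠ 2) (A : ValuationSubring (AlgebraicClosure ℚ)) (hA : A.LiesOverPrime p)
    (h2 : algebraMap ℚ (AlgebraicClosure ℚ) WL.a₂ ∈ A)
    (h4 : algebraMap ℚ (AlgebraicClosure ℚ) WL.a₄ ∈ A)
    (hker : ∀ (x y : AlgebraicClosure ℚ) (h : (WL⁄(AlgebraicClosure ℚ)).Nonsingular x y),
      (p : ℤ) • Point.some x y h = 0 → x ∉ A) :
    ¬ ∃ N : Submodule (ZMod p) (Submodule.torsionBy ℤ (WL⁄(AlgebraicClosure ℚ)).Point p),
      IsGaloisStable ℚ N ∧ N ≠ ⊥ ∧ N ≠ ⊤ := by
  have hWb : IsLeg (WL.baseChange (AlgebraicClosure ℚ)) :=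
    ⟨by rw [WeierstrassCurve.baseChange, WeierstrassCurve.map_a₁, hWL.a₁, _root_.map_zero],
     by rw [WeierstrassCurve.baseChange, WeierstrassCurve.map_a₃, hWL.a₃, _root_.map_zero],
     by rw [WeierstrassCurve.baseChange, WeierstrassCurve.map_a₆, hWL.a₆, _root_.map_zero]⟩
  have hfin : Finite (Submodule.torsionBy ℤ (WL⁄(AlgebraicClosure ℚ)).Point p) :=
    finite_torsion hWb hp hp2
  refine XpCurve.no_stable WL hp A hA hker ?_
  intro _ S hS
  refine prime_mul_prod_mem hWb hp hp2 A hA h2 h4 S (fun x hx => ?_)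
  obtain ⟨y, h, e⟩ := (hS x).mp hx
  refine ⟨hker x y h e, y, h, ?_⟩
  rwa [natCast_zsmul] at e

end Rat

end Fermat.Agent.S13.RF
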