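import Fermat.Agent.S13.RF.Xp
import Fermat.Agent.S13.DPModel

/-!
# S13, route RF: `(Xp)` on the frozen Frey model

`RF.no_stable_leg` on the Legendre model `legOf P.freyCurve 0` (`Y = y + x/2`, same
`x`-coordinates, coefficients integral at every odd prime), transported to the frozen model by
`DPModel.frey_Xp`.  The statement is verbatim the `hXp` hypothesis of
`WireFrey.frey_cofixedLine_coord`.
-/

set_option autoImplicit false

namespace Fermat.Agent.S13.RF

open WeierstrassCurve WeierstrassCurve.Affine WeierstrassCurve.Affine.Point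
open Fermat.Agent.S05

/-- **(Xp) on the frozen Frey model** (coordinate form). -/
theorem frey_Xp (P : FreyPackage) (A : ValuationSubring Kb) (hA : A.LiesOverPrime P.p)
    (hker : ∀ (x y : Kb) (h : (P.freyCurve⁄Kb).Nonsingular x y),
      (P.p : ℤ) • Point.some x y h = 0 → x ∉ A) :
    ¬ ∃ N : Submodule (ZMod P.p) (Submodule.torsionBy ℤ (P.freyCurve⁄Kb).Point P.p),
      IsGaloisStable ℚ N ∧ N ≠ ⊥ ∧ N ≠ ⊤ := by
  have hp2 : P.p ≠ 2 := by
    have := P.hp5
    omega
  refine DPModel.frey_Xp P A hA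
    (fun h2 h4 hk => no_stable_leg _ (isLeg_legOf _ _) P.pp hp2 A hA h2 h4 hk) ?_
  intro Q x y h hQ
  apply hker x y h
  have := (Submodule.mem_torsionBy_iff _ _).mp Q.2
  rwa [hQ] at this

/-- the `hXp` hypothesis of `WireFrey.frey_cofixedLine_coord`, for all `A` at once -/
theorem frey_hXp (P : FreyPackage) :
    ∀ A : ValuationSubring Kb, A.LiesOverPrime P.p →
      (∀ (x y : Kb) (h : (P.freyCurve⁄Kb).Nonsingular x y),
        (P.p : ℤ) • Point.some x y h = 0 → x ∉ A) →
      ¬ ∃ N : Submodule (ZMod P.p) (Submodule.torsionBy ℤ (P.freyCurve⁄Kb).Point P.p),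
        IsGaloisStable ℚ N ∧ N ≠ ⊥ ∧ N ≠ ⊤ :=
  fun A hA hker => frey_Xp P A hA hker

end Fermat.Agent.S13.RF
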